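import Fermat.Agent.Corollaries.Ord.Basic
import Fermat.Agent.Corollaries.Ord.Spl

/-!
# The support problem: the Kummer theoretic part

If for almost all primes `p` and all `n` the congruence `xⁿ ≡ 1 mod p` implies `yⁿ ≡ 1 mod p` then for every
prime `ℓ` some product `y xᶜ` is an `ℓ`-th power.
-/

set_option autoImplicit false

open NumberField Filter Topology
open Fermat.Agent.Frob Fermat.Agent.FrobDensity Fermat.Agent.Cor.Cheb Fermat.Agent.Cor.Art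
open Fermat.Agent.Cor.Ord

namespace Fermat.Agent.Cor.Sup

local notation "Qbar" => AlgebraicClosure ℚ

/-- a function on the primes which vanishes almost everywhere has mean value `0` -/
lemma exists_prime_ne_of_hasMean {w : ℕ → ℝ} {c : ℝ} (h : HasMean w c) (hc : c ≠ 0)
    (S : Finset ℕ) : ∃ p : ℕ, p.Prime ∧ p ∉ S ∧ w p ≠ 0 := by
  by_contra hcon
  push Not at hcon
  have h1 : HasMean (fun _ => (0 : ℝ)) c := h.congr S fun p hp hpS => hcon p hp hpS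
  exact hc (tendsto_nhds_unique h1 hasMean_zero)

open Classical in
/-- **Chebotarev's theorem** (existence), for any homomorphism of finite level -/
theorem exists_frob_conj {G : Type*} [Group G] [Finite G] (r : GQ →* G)
    (hlevel : ∃ L : IntermediateField ℚ Qbar, FiniteDimensional ℚ L ∧
      ∀ σ : GQ, (∀ x ∈ L, σ x = x) → r σ = 1) (σ : GQ) (S : Finset ℕ) :
    ∃ p : ℕ, p.Prime ∧ p ∉ S ∧ ∃ τ : GQ, r (frob p) = r (τ⁻¹ * σ * τ) := by
  set ρ : GQ →* r.range := r.rangeRestrict with hρ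
  have hsurj : Function.Surjective ρ := r.rangeRestrict_surjective
  have hlevel' : ∃ L : IntermediateField ℚ Qbar, FiniteDimensional ℚ L ∧
      ∀ σ : GQ, (∀ x ∈ L, σ x = x) → ρ σ = 1 := by
    obtain ⟨L, hL, hr⟩ := hlevel
    exact ⟨L, hL, fun σ hσ => Subtype.ext (hr σ hσ)⟩
  have : Fintype r.range := Fintype.ofFinite _
  have hmean := hasMean_class (r := ρ) (fun g => hasMean_NC hsurj hlevel' g)
    (f := fun g => if IsConj (ρ σ) g then (1 : ℝ) else 0) (fun x g => by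
      have h1 : IsConj g (x⁻¹ * g * x) := isConj_iff.mpr ⟨x⁻¹, by rw [inv_inv]⟩
      have h2 : IsConj (ρ σ) (x⁻¹ * g * x) ↔ IsConj (ρ σ) g :=
        ⟨fun h => h.trans h1.symm, fun h => h.trans h1⟩
      simp only [h2])
  have hpos : (0 : ℝ) < (∑ g : r.range, if IsConj (ρ σ) g then (1 : ℝ) else 0) /
      Nat.card r.range := by
    refine div_pos ?_ (by exact_mod_cast Nat.card_pos)
    refine Finset.sum_pos' (fun g _ => by split_ifs <;> norm_num) ⟨ρ σ, Finset.mem_univ _, ?_⟩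
    rw [if_pos (IsConj.refl _)]
    norm_num
  obtain ⟨p, hp, hpS, hne⟩ := exists_prime_ne_of_hasMean hmean hpos.ne' S
  refine ⟨p, hp, hpS, ?_⟩
  have h1 : IsConj (ρ σ) (ρ (frob p)) := by
    by_contra h
    exact hne (if_neg h)
  obtain ⟨c, hc⟩ := isConj_iff.mp h1
  obtain ⟨τ, hτ⟩ := hsurj c
  refine ⟨τ⁻¹, ?_⟩
  have h2 := congrArg Subtype.val hc
  rw [← hτ] at h2
  rw [inv_inv, map_mul, map_mul, map_inv]
  exact h2.symm

section

variable {q : ℕ} [NeZero q] {ζ α : Qbar} (hζ : IsPrimitiveRoot ζ q) {a : ℤ} (hα : α ^ q = a)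
  (ha : a ≠ 0)

lemma kc_mul_of_cyc {σ τ : GQ} (hσ : cyc hζ σ = 1) :
    kc hζ hα ha (σ * τ) = kc hζ hα ha σ + kc hζ hα ha τ := by
  rw [← aff_c hζ hα ha, map_mul, Aff.mul_c, aff_c, aff_c, aff_u, hσ, Units.val_one, one_mul]

lemma kc_pow_of_cyc {σ : GQ} (hσ : cyc hζ σ = 1) (n : ℕ) :
    kc hζ hα ha (σ ^ n) = n * kc hζ hα ha σ := by
  have h1 : aff hζ hα ha σ = ⟨kc hζ hα ha σ, 1⟩ := by
    ext
    · rfl
    · exact congrArg Units.val hσ
  rw [← aff_c hζ hα ha, map_pow, h1, Aff.translation_pow]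

lemma kc_conj_of_cyc {σ : GQ} (hσ : cyc hζ σ = 1) (τ : GQ) :
    kc hζ hα ha (τ⁻¹ * σ * τ) =
      (((cyc hζ τ)⁻¹ : (ZMod q)ˣ) : ZMod q) * kc hζ hα ha σ := by
  rw [← aff_c hζ hα ha, map_mul, map_mul, map_inv]
  simp only [Aff.mul_c, Aff.mul_u, Aff.inv_c, Aff.inv_u, aff_c, aff_u, hσ, mul_one]
  ring

end

section

variable {ℓ : ℕ} [NeZero ℓ] {ζ α β : Qbar} (hζ : IsPrimitiveRoot ζ ℓ) {x y : ℤ}
  (hα : α ^ ℓ = x) (hβ : β ^ ℓ = y) (hx : x ≠ 0) (hy : y ≠ 0)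

/-- the condition of the support problem and Frobenius elements -/
theorem kc_eq_zero_of_support (hℓ : ℓ.Prime) (S : Finset ℕ)
    (h : ∀ p : ℕ, p.Prime → p ∉ S → ∀ n : ℕ, ((x : ℤ) : ZMod p) ^ n = 1 →
      ((y : ℤ) : ZMod p) ^ n = 1) {σ : GQ} (hσ : cyc hζ σ = 1) (hσx : kc hζ hα hx σ = 0) :
    kc hζ hβ hy σ = 0 := by
  by_contra hne
  have hlevel : ∃ L : IntermediateField ℚ Qbar, FiniteDimensional ℚ L ∧
      ∀ σ : GQ, (∀ x ∈ L, σ x = x) → (aff hζ hα hx).prod (aff hζ hβ hy) σ = 1 := by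
    refine ⟨IntermediateField.adjoin ℚ {ζ, α, β},
      IntermediateField.finiteDimensional_adjoin fun x _ => Algebra.IsIntegral.isIntegral x,
      fun σ hσ => ?_⟩
    have h1 := hσ _ (IntermediateField.subset_adjoin ℚ {ζ, α, β} (show ζ ∈ _ by simp))
    have h2 := hσ _ (IntermediateField.subset_adjoin ℚ {ζ, α, β} (show α ∈ _ by simp))
    have h3 := hσ _ (IntermediateField.subset_adjoin ℚ {ζ, α, β} (show β ∈ _ by simp))
    exact Prod.ext ((aff_eq_one_iff hζ hα hx σ).mpr ⟨h1, h2⟩)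
      ((aff_eq_one_iff hζ hβ hy σ).mpr ⟨h1, h3⟩)
  obtain ⟨p, hp, hpS, τ, hτ⟩ := exists_frob_conj _ hlevel σ
    (S ∪ insert ℓ (x.natAbs.primeFactors ∪ y.natAbs.primeFactors))
  simp only [Finset.mem_union, Finset.mem_insert, not_or, Nat.mem_primeFactors] at hpS
  obtain ⟨hpS, hpℓ, hpx', hpy'⟩ := hpS
  have hpx : ¬ (p : ℤ) ∣ x := fun h => hpx' ⟨hp, Int.natCast_dvd.mp h, Int.natAbs_ne_zero.mpr hx⟩
  have hpy : ¬ (p : ℤ) ∣ y := fun h => hpy' ⟨hp, Int.natCast_dvd.mp h, Int.natAbs_ne_zero.mpr hy⟩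
  have hτ1 : aff hζ hα hx (frob p) = aff hζ hα hx (τ⁻¹ * σ * τ) := congrArg Prod.fst hτ
  have hτ2 : aff hζ hβ hy (frob p) = aff hζ hβ hy (τ⁻¹ * σ * τ) := congrArg Prod.snd hτ
  obtain ⟨A, hA, hf⟩ := exists_frob_place hp
  have hcop : p.Coprime ℓ := (Nat.coprime_primes hp hℓ).mpr hpℓ
  have hcyc := cyc_frob hζ hA hf hcop
  have hcyc1 : cyc hζ (frob p) = 1 := by
    rw [← aff_u hζ hα hx, hτ1, aff_u, map_mul, map_mul, hσ, mul_one, map_inv, inv_mul_cancel]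
  have hdvd : ℓ ∣ p - 1 := by
    rw [hcyc1, Units.val_one] at hcyc
    rw [← ZMod.natCast_eq_zero_iff, Nat.cast_sub hp.one_le, Nat.cast_one, ← hcyc, sub_self]
  have h1 : kc hζ hα hx (frob p) = 0 := by
    rw [← aff_c hζ hα hx, hτ1, aff_c, kc_conj_of_cyc hζ hα hx hσ, hσx, mul_zero]
  have h2 : kc hζ hβ hy (frob p) ≠ 0 := by
    rw [← aff_c hζ hβ hy, hτ2, aff_c, kc_conj_of_cyc hζ hβ hy hσ, Ne, Units.mul_right_eq_zero]
    exact hne
  rw [kc_eq_zero_iff, frob_fix_iff hp hA hf (NeZero.ne ℓ) hcop hdvd hpx hα] at h1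
  rw [Ne, kc_eq_zero_iff, frob_fix_iff hp hA hf (NeZero.ne ℓ) hcop hdvd hpy hβ] at h2
  exact h2 (h p hp hpS _ h1)

end

/-- **The Kummer theoretic part of the support problem.** -/
theorem exists_pow_of_support {x y : ℤ} (hx : x ≠ 0) (hy : y ≠ 0) (S : Finset ℕ)
    (h : ∀ p : ℕ, p.Prime → p ∉ S → ∀ n : ℕ, ((x : ℤ) : ZMod p) ^ n = 1 →
      ((y : ℤ) : ZMod p) ^ n = 1) {ℓ : ℕ} (hℓ : ℓ.Prime) :
    ∃ (c : ℕ) (b : ℚ), b ^ ℓ = ((y * x ^ c : ℤ) : ℚ) := by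
  have hN : NeZero ℓ := ⟨hℓ.ne_zero⟩
  have hF : Fact ℓ.Prime := ⟨hℓ⟩
  have hN' : NeZero ((ℓ : ℕ) : Qbar) := ⟨Nat.cast_ne_zero.mpr hℓ.ne_zero⟩
  obtain ⟨ζ, hζ⟩ := HasEnoughRootsOfUnity.exists_primitiveRoot Qbar ℓ
  obtain ⟨α, hα⟩ := IsAlgClosed.exists_pow_nat_eq ((x : ℤ) : Qbar) hℓ.pos
  obtain ⟨β, hβ⟩ := IsAlgClosed.exists_pow_nat_eq ((y : ℤ) : Qbar) hℓ.pos
  have key := fun {σ : GQ} => kc_eq_zero_of_support hζ hα hβ hx hy hℓ S h (σ := σ)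
  -- the cocycles are proportional
  have hprop : ∃ c : ℕ, ∀ σ : GQ, cyc hζ σ = 1 →
      kc hζ hβ hy σ + c * kc hζ hα hx σ = 0 := by
    by_cases h0 : ∀ σ : GQ, cyc hζ σ = 1 → kc hζ hα hx σ = 0
    · refine ⟨0, fun σ hσ => ?_⟩
      rw [key hσ (h0 σ hσ), Nat.cast_zero, zero_mul, add_zero]
    · push Not at h0
      obtain ⟨σ₀, hσ₀, hne⟩ := h0
      refine ⟨(-(kc hζ hβ hy σ₀ * (kc hζ hα hx σ₀)⁻¹)).val, fun σ hσ => ?_⟩
      rw [ZMod.natCast_zmod_val]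
      set n : ℕ := (-(kc hζ hα hx σ * (kc hζ hα hx σ₀)⁻¹)).val with hn
      have hn' : (n : ZMod ℓ) = -(kc hζ hα hx σ * (kc hζ hα hx σ₀)⁻¹) := by
        rw [hn, ZMod.natCast_zmod_val]
      have hpow : cyc hζ (σ₀ ^ n) = 1 := by rw [map_pow, hσ₀, one_pow]
      have h1 : kc hζ hα hx (σ * σ₀ ^ n) = 0 := by
        rw [kc_mul_of_cyc hζ hα hx hσ, kc_pow_of_cyc hζ hα hx hσ₀, hn']
        field_simp
        ring
      have h2 := key (σ := σ * σ₀ ^ n) (by rw [map_mul, hσ, hpow, one_mul]) h1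
      rw [kc_mul_of_cyc hζ hβ hy hσ, kc_pow_of_cyc hζ hβ hy hσ₀, hn'] at h2
      linear_combination h2
  obtain ⟨c, hc⟩ := hprop
  refine ⟨c, ?_⟩
  by_contra hcon
  push Not at hcon
  have hw : y * x ^ c ≠ 0 := mul_ne_zero hy (pow_ne_zero c hx)
  have hγ : (β * α ^ c) ^ ℓ = ((y * x ^ c : ℤ) : Qbar) := by
    rw [mul_pow, hβ, ← pow_mul, mul_comm c ℓ, pow_mul, hα]
    push_cast
    ring
  obtain ⟨τ, hτ, hne⟩ := exists_translation hζ hγ hw hℓ hcon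
  apply hne
  have h1 : τ (β * α ^ c) = ζ ^ ((kc hζ hβ hy τ).val + c * (kc hζ hα hx τ).val) * (β * α ^ c) := by
    rw [map_mul, map_pow, kc_spec hζ hβ hy τ, kc_spec hζ hα hx τ, mul_pow, ← pow_mul, pow_add,
      mul_comm c]
    ring
  rw [kc_eq_of hζ hγ hw h1]
  push_cast
  rw [ZMod.natCast_zmod_val, ZMod.natCast_zmod_val]
  exact hc τ hτ

end Fermat.Agent.Cor.Sup
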