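import Mathlib

/-!
# Primes `p` such that the order of `g` modulo `p` is `ℓ ^ m`
-/

set_option autoImplicit false

namespace Fermat.Agent.Cor.Sup

lemma not_sq_dvd_geom_odd {ℓ : ℕ} (hℓ : ℓ.Prime) (hodd : Odd ℓ) {G : ℤ} (hG : (ℓ : ℤ) ∣ G - 1) :
    ¬ (ℓ : ℤ) ^ 2 ∣ ∑ i ∈ Finset.range ℓ, G ^ i := by
  obtain ⟨u, hu⟩ := hG
  have hG' : G = 1 + ℓ * u := by linear_combination hu
  have h1 := odd_sq_dvd_geom_sum₂_sub (R := ℤ) (a := 1) (b := u) hodd
  simp only [one_pow, mul_one] at h1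
  rw [← hG'] at h1
  intro h2
  have h3 : (ℓ : ℤ) ^ 2 ∣ ℓ := by
    have h4 := dvd_sub h2 h1
    have h5 : ∑ i ∈ Finset.range ℓ, G ^ i - (∑ i ∈ Finset.range ℓ, G ^ i - (ℓ : ℤ)) = ℓ := by ring
    rwa [h5] at h4
  have h4 : ℓ ^ 2 ∣ ℓ := by exact_mod_cast h3
  have h5 := Nat.le_of_dvd hℓ.pos h4
  have h6 := hℓ.two_le
  nlinarith

lemma not_four_dvd (h : ℤ) : ¬ (2 : ℤ) ^ 2 ∣ 1 + h ^ 2 := by
  intro h1
  have h2 : (1 + h ^ 2) % 4 = 0 := by omega
  rcases Int.even_or_odd' h with ⟨k, rfl | rfl⟩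
  · ring_nf at h2
    omega
  · ring_nf at h2
    omega

/-- **Zsigmondy's theorem for prime powers**: `g ≥ 2`, `ℓ` prime, `m ≥ 2`. -/
theorem exists_prime_orderOf {g ℓ m : ℕ} (hg : 2 ≤ g) (hℓ : ℓ.Prime) (hm : 2 ≤ m) :
    ∃ p : ℕ, p.Prime ∧ orderOf ((g : ℕ) : ZMod p) = ℓ ^ m := by
  obtain ⟨m', rfl⟩ : ∃ m', m = m' + 2 := ⟨m - 2, by omega⟩
  have hF : Fact ℓ.Prime := ⟨hℓ⟩
  set G : ℕ := g ^ ℓ ^ (m' + 1) with hGdef
  have hG2 : 2 ≤ G := by
    calc 2 ≤ g := hg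
      _ = g ^ 1 := (pow_one g).symm
      _ ≤ G := Nat.pow_le_pow_right (by omega) (Nat.one_le_pow _ _ hℓ.pos)
  set P : ℕ := ∑ i ∈ Finset.range ℓ, G ^ i with hP
  have hPgt : ℓ < P := by
    have h1 : ∑ i ∈ Finset.range ℓ, 1 < P := by
      refine Finset.sum_lt_sum (fun i _ => Nat.one_le_pow _ _ (by omega)) ⟨1, ?_, ?_⟩
      · rw [Finset.mem_range]
        exact hℓ.one_lt
      · rw [pow_one]
        omega
    simpa using h1
  -- a prime divisor different from `ℓ`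
  have hex : ∃ p : ℕ, p.Prime ∧ p ∣ P ∧ p ≠ ℓ := by
    by_contra hcon
    push Not at hcon
    have h1 : P = ℓ ^ P.primeFactorsList.length :=
      Nat.eq_prime_pow_of_unique_prime_dvd (by omega) fun {d} hd hdP => hcon d hd hdP
    set t := P.primeFactorsList.length
    have ht : 2 ≤ t := by
      by_contra ht
      have h2 : P ≤ ℓ ^ 1 := by
        rw [h1]
        exact Nat.pow_le_pow_right hℓ.pos (by omega)
      rw [pow_one] at h2
      omega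
    have h2 : ℓ ^ 2 ∣ P := by
      rw [h1]
      exact pow_dvd_pow ℓ ht
    have h3 : (ℓ : ℤ) ^ 2 ∣ ∑ i ∈ Finset.range ℓ, (G : ℤ) ^ i := by
      have h4 : ((ℓ ^ 2 : ℕ) : ℤ) ∣ ((P : ℕ) : ℤ) := by exact_mod_cast h2
      rw [hP] at h4
      push_cast at h4
      exact h4
    rcases hℓ.eq_two_or_odd' with h4 | h4
    · have h5 : (G : ℤ) = ((g : ℤ) ^ 2 ^ m') ^ 2 := by
        rw [hGdef, h4]
        push_cast
        rw [← pow_mul, ← pow_succ]
      rw [h4] at h3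
      rw [Finset.sum_range_succ, Finset.sum_range_succ, Finset.sum_range_zero, zero_add, pow_zero,
        pow_one, h5] at h3
      have h6 : (2 : ℤ) ^ 2 ∣ 1 + ((g : ℤ) ^ 2 ^ m') ^ 2 := by exact_mod_cast h3
      exact not_four_dvd _ h6
    · refine not_sq_dvd_geom_odd hℓ h4 ?_ h3
      have h5 : ((G : ℕ) : ZMod ℓ) = 1 := by
        have h6 : (∑ i ∈ Finset.range ℓ, ((G : ℕ) : ZMod ℓ) ^ i) = 0 := by
          have h7 : ((P : ℕ) : ZMod ℓ) = 0 := by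
            rw [ZMod.natCast_eq_zero_iff]
            exact (dvd_pow_self ℓ two_ne_zero).trans h2
          rw [hP] at h7
          push_cast at h7
          exact h7
        have h7 := geom_sum_mul ((G : ℕ) : ZMod ℓ) ℓ
        rw [h6, zero_mul, ZMod.pow_card] at h7
        exact (sub_eq_zero.mp h7.symm)
      rw [← ZMod.intCast_zmod_eq_zero_iff_dvd]
      push_cast
      rw [h5, sub_self]
  obtain ⟨p, hp, hpP, hpℓ⟩ := hex
  have hFp : Fact p.Prime := ⟨hp⟩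
  refine ⟨p, hp, ?_⟩
  have h6 : (∑ i ∈ Finset.range ℓ, ((G : ℕ) : ZMod p) ^ i) = 0 := by
    have h7 : ((P : ℕ) : ZMod p) = 0 := by
      rw [ZMod.natCast_eq_zero_iff]
      exact hpP
    rw [hP] at h7
    push_cast at h7
    exact h7
  have hGp : ((g : ℕ) : ZMod p) ^ ℓ ^ (m' + 1) = ((G : ℕ) : ZMod p) := by
    rw [hGdef]
    push_cast
    rfl
  refine orderOf_eq_prime_pow (n := m' + 1) ?_ ?_
  · rw [hGp]
    intro h
    rw [h] at h6
    simp only [one_pow, Finset.sum_const, Finset.card_range, nsmul_eq_mul, mul_one] at h6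
    rw [ZMod.natCast_eq_zero_iff] at h6
    exact hpℓ ((Nat.prime_dvd_prime_iff_eq hp hℓ).mp h6)
  · rw [pow_succ ℓ, pow_mul, hGp]
    have h7 := geom_sum_mul ((G : ℕ) : ZMod p) ℓ
    rw [h6, zero_mul] at h7
    exact (sub_eq_zero.mp h7.symm)

end Fermat.Agent.Cor.Sup
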