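import Fermat.Agent.Corollaries.Sup.Kummer
import Fermat.Agent.Corollaries.Sup.Order

/-!
# The support problem of Erdős

(Corrales-Rodrigáñez and Schoof 1997) Let `x > 1`, `y ≥ 1` be integers. If for all but finitely many primes `p` and
all `n` the prime `p` divides `yⁿ - 1` whenever it divides `xⁿ - 1` then `y` is a power of `x`.
-/

set_option autoImplicit false

namespace Fermat.Agent.Cor.Sup

lemma dvd_pow_sub_one_iff {x p n : ℕ} (hx : 0 < x) : p ∣ x ^ n - 1 ↔ ((x : ℕ) : ZMod p) ^ n = 1 := by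
  rw [← ZMod.natCast_eq_zero_iff, Nat.cast_sub (Nat.one_le_pow _ _ hx), Nat.cast_pow, Nat.cast_one,
    sub_eq_zero]

/-- the exponent vectors are proportional -/
lemma factorization_mul_eq {x y : ℕ} (hx : x ≠ 0) (hy : y ≠ 0)
    (h : ∀ ℓ : ℕ, ℓ.Prime → ∃ (c : ℕ) (b : ℚ), b ^ ℓ = (((y : ℤ) * (x : ℤ) ^ c : ℤ) : ℚ)) (p q : ℕ)
    (hp : p.Prime) (hq : q.Prime) :
    padicValNat p y * padicValNat q x = padicValNat q y * padicValNat p x := by
  have hFp : Fact p.Prime := ⟨hp⟩
  have hFq : Fact q.Prime := ⟨hq⟩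
  have hx' : (x : ℚ) ≠ 0 := by exact_mod_cast hx
  have hy' : (y : ℚ) ≠ 0 := by exact_mod_cast hy
  have key : ∀ ℓ : ℕ, ℓ.Prime → (ℓ : ℤ) ∣ (padicValNat p y : ℤ) * padicValNat q x -
      padicValNat q y * padicValNat p x := by
    intro ℓ hℓ
    obtain ⟨c, b, hb⟩ := h ℓ hℓ
    have hval : ∀ r : ℕ, r.Prime → (ℓ : ℤ) * padicValRat r b =
        padicValNat r y + c * padicValNat r x := by
      intro r hr
      have hFr : Fact r.Prime := ⟨hr⟩
      have h1 := congrArg (padicValRat r) hb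
      have hb0 : b ≠ 0 := by
        rintro rfl
        rw [zero_pow hℓ.ne_zero] at hb
        push_cast at hb
        exact mul_ne_zero hy' (pow_ne_zero c hx') hb.symm
      push_cast at h1
      rw [padicValRat.pow, padicValRat.mul hy' (pow_ne_zero c hx'), padicValRat.pow, padicValRat.of_nat,
        padicValRat.of_nat] at h1
      exact h1
    refine ⟨padicValRat p b * padicValNat q x - padicValRat q b * padicValNat p x, ?_⟩
    linear_combination (-(padicValNat q x : ℤ)) * hval p hp + (padicValNat p x : ℤ) * hval q hq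
  have hzero : (padicValNat p y : ℤ) * padicValNat q x - padicValNat q y * padicValNat p x = 0 := by
    by_contra hne
    obtain ⟨ℓ, hℓ1, hℓ⟩ := Nat.exists_infinite_primes
      (((padicValNat p y : ℤ) * padicValNat q x - padicValNat q y * padicValNat p x).natAbs + 1)
    have h1 := Int.natAbs_dvd_natAbs.mpr (key ℓ hℓ)
    rw [Int.natAbs_natCast] at h1
    have h2 := Nat.le_of_dvd (Int.natAbs_pos.mpr hne) h1
    omega
  have h1 : ((padicValNat p y * padicValNat q x : ℕ) : ℤ) =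
      ((padicValNat q y * padicValNat p x : ℕ) : ℤ) := by
    rw [Nat.cast_mul, Nat.cast_mul]
    linear_combination hzero
  exact_mod_cast h1

/-- powers of one number -/
lemma exists_common_base {x y : ℕ} (hx : 1 < x) (hy : 1 < y)
    (h : ∀ p q : ℕ, p.Prime → q.Prime →
      padicValNat p y * padicValNat q x = padicValNat q y * padicValNat p x) :
    ∃ g A B : ℕ, A.Coprime B ∧ x = g ^ A ∧ y = g ^ B := by
  obtain ⟨p, hp, hpx⟩ := Nat.exists_prime_and_dvd hx.ne'
  have hFp : Fact p.Prime := ⟨hp⟩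
  have hA : padicValNat p x ≠ 0 := by
    have := one_le_padicValNat_of_dvd (by omega : x ≠ 0) hpx
    omega
  have hpow : x ^ padicValNat p y = y ^ padicValNat p x := by
    refine Nat.eq_of_factorization_eq (pow_ne_zero _ (by omega)) (pow_ne_zero _ (by omega)) fun q => ?_
    rw [Nat.factorization_pow, Nat.factorization_pow, Finsupp.smul_apply, Finsupp.smul_apply,
      smul_eq_mul, smul_eq_mul]
    by_cases hq : q.Prime
    · rw [Nat.factorization_def _ hq, Nat.factorization_def _ hq, h p q hp hq, mul_comm]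
    · rw [Nat.factorization_eq_zero_of_not_prime _ hq, Nat.factorization_eq_zero_of_not_prime _ hq,
        mul_zero, mul_zero]
  have hB : padicValNat p y ≠ 0 := by
    intro h0
    rw [h0, pow_zero] at hpow
    have h1 := Nat.one_lt_pow hA hy
    omega
  set d := Nat.gcd (padicValNat p y) (padicValNat p x) with hd
  have hd0 : 0 < d := Nat.gcd_pos_of_pos_left _ (Nat.pos_of_ne_zero hB)
  obtain ⟨B, hB'⟩ : d ∣ padicValNat p y := Nat.gcd_dvd_left _ _
  obtain ⟨A, hA'⟩ : d ∣ padicValNat p x := Nat.gcd_dvd_right _ _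
  have hcop : B.Coprime A := by
    have h1 : d * Nat.gcd B A = d * 1 := by
      rw [← Nat.gcd_mul_left, ← hB', ← hA', mul_one]
    exact Nat.eq_of_mul_eq_mul_left hd0 h1
  have h2 : x ^ B = y ^ A := by
    rw [hB', hA', mul_comm d, mul_comm d, pow_mul, pow_mul] at hpow
    exact Nat.pow_left_injective hd0.ne' hpow
  obtain ⟨g, hg1, hg2⟩ := Nat.exists_eq_pow_of_exponent_coprime_of_pow_eq_pow hcop h2
  exact ⟨g, A, B, hcop.symm, hg1, hg2⟩

/-- **The support problem of Erdős** (Corrales-Rodrigáñez and Schoof). -/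
theorem support_problem {x y : ℕ} (hx : 1 < x) (hy : 0 < y) (S : Finset ℕ)
    (h : ∀ p : ℕ, p.Prime → p ∉ S → ∀ n : ℕ, p ∣ x ^ n - 1 → p ∣ y ^ n - 1) :
    ∃ k : ℕ, y = x ^ k := by
  rcases Nat.eq_or_lt_of_le (Nat.succ_le_of_lt hy) with h1 | hy1
  · exact ⟨0, by rw [pow_zero]; exact h1.symm⟩
  have hy1' : 1 < y := hy1
  have h' : ∀ p : ℕ, p.Prime → p ∉ S → ∀ n : ℕ, (((x : ℤ) : ℤ) : ZMod p) ^ n = 1 →
      (((y : ℤ) : ℤ) : ZMod p) ^ n = 1 := by
    intro p hp hpS n hn
    rw [Int.cast_natCast] at hn ⊢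
    exact (dvd_pow_sub_one_iff hy).mp (h p hp hpS n ((dvd_pow_sub_one_iff (by omega)).mpr hn))
  have hx0 : (x : ℤ) ≠ 0 := by exact_mod_cast (by omega : x ≠ 0)
  have hy0 : (y : ℤ) ≠ 0 := by exact_mod_cast (by omega : y ≠ 0)
  obtain ⟨g, A, B, hAB, hxg, hyg⟩ := exists_common_base hx hy1' fun p q hp hq =>
    factorization_mul_eq (by omega) (by omega)
      (fun ℓ hℓ => exists_pow_of_support hx0 hy0 S h' hℓ) p q hp hq
  have hg : 2 ≤ g := by
    by_contra hlt
    have h2 : g = 0 ∨ g = 1 := by omega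
    rcases h2 with rfl | rfl
    · rcases Nat.eq_zero_or_pos A with rfl | hA
      · rw [pow_zero] at hxg
        omega
      · rw [zero_pow hA.ne'] at hxg
        omega
    · rw [one_pow] at hxg
      omega
  suffices hA : A = 1 by
    refine ⟨B, ?_⟩
    rw [hyg, hxg, hA, pow_one]
  by_contra hA
  obtain ⟨ℓ, hℓ, A', rfl⟩ : ∃ ℓ : ℕ, ℓ.Prime ∧ ℓ ∣ A := Nat.exists_prime_and_dvd hA
  obtain ⟨p, hp, hord⟩ := exists_prime_orderOf (m := S.sup id + 2) hg hℓ (by omega)
  have hFp : Fact p.Prime := ⟨hp⟩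
  have hg1 := pow_orderOf_eq_one ((g : ℕ) : ZMod p)
  rw [hord] at hg1
  have hg0 : ((g : ℕ) : ZMod p) ≠ 0 := by
    intro h0
    rw [h0, zero_pow (pow_ne_zero _ hℓ.ne_zero)] at hg1
    exact zero_ne_one hg1
  have hlt : S.sup id < p := by
    have h2 := Nat.le_of_dvd (by have := hp.two_le; omega) (ZMod.orderOf_dvd_card_sub_one hg0)
    rw [hord] at h2
    have h3 : S.sup id + 2 < ℓ ^ (S.sup id + 2) := Nat.lt_pow_self hℓ.one_lt
    omega
  have hpS : p ∉ S := fun hpS => absurd (Finset.le_sup (f := id) hpS) (by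
    rw [id]
    omega)
  have h2 : p ∣ x ^ (ℓ ^ (S.sup id + 1)) - 1 := by
    rw [dvd_pow_sub_one_iff (by omega), hxg]
    push_cast
    rw [← pow_mul, mul_assoc, mul_comm A', ← mul_assoc, ← pow_succ', pow_mul, hg1, one_pow]
  have h3 := h p hp hpS _ h2
  rw [dvd_pow_sub_one_iff hy, hyg] at h3
  push_cast at h3
  rw [← pow_mul] at h3
  have h4 := orderOf_dvd_of_pow_eq_one h3
  rw [hord, pow_succ', mul_comm B] at h4
  have h5 : ℓ ∣ B := by
    rw [mul_comm ℓ] at h4
    exact Nat.dvd_of_mul_dvd_mul_left (pow_pos hℓ.pos _) h4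
  have h6 := Nat.dvd_gcd (dvd_mul_right ℓ A') h5
  rw [hAB] at h6
  exact hℓ.one_lt.ne' (Nat.dvd_one.mp h6)

/-- The support problem as an equivalence. -/
theorem support_problem_iff {x y : ℕ} (hx : 1 < x) (hy : 0 < y) :
    (∀ p : ℕ, p.Prime → ∀ n : ℕ, p ∣ x ^ n - 1 → p ∣ y ^ n - 1) ↔ ∃ k : ℕ, y = x ^ k := by
  constructor
  · intro h
    exact support_problem hx hy ∅ fun p hp _ => h p hp
  · rintro ⟨k, rfl⟩ p hp n h
    rw [dvd_pow_sub_one_iff (by omega)] at h
    rw [dvd_pow_sub_one_iff hy]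
    push_cast
    rw [← pow_mul, mul_comm, pow_mul, h, one_pow]

/-- **Erdős' original question**: if `xⁿ - 1` and `yⁿ - 1` have the same prime divisors for all `n` then `x = y`. -/
theorem eq_of_primeFactors_eq {x y : ℕ} (hx : 1 < x) (hy : 1 < y)
    (h : ∀ n : ℕ, (x ^ n - 1).primeFactors = (y ^ n - 1).primeFactors) : x = y := by
  have key : ∀ {a b : ℕ}, 1 < a → 1 < b → (∀ n : ℕ, (a ^ n - 1).primeFactors = (b ^ n - 1).primeFactors) →
      ∃ k : ℕ, b = a ^ k := by
    intro a b ha hb hab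
    refine support_problem ha (by omega) ∅ fun p hp _ n hn => ?_
    rcases Nat.eq_zero_or_pos n with rfl | hn0
    · simp
    · have h1 : a ^ n - 1 ≠ 0 := by
        have := Nat.one_lt_pow hn0.ne' ha
        omega
      have h2 : p ∈ (a ^ n - 1).primeFactors := Nat.mem_primeFactors.mpr ⟨hp, hn, h1⟩
      rw [hab n] at h2
      exact Nat.dvd_of_mem_primeFactors h2
  obtain ⟨k, hk⟩ := key hx hy h
  obtain ⟨j, hj⟩ := key hy hx fun n => (h n).symm
  have h1 : x ^ (k * j) = x ^ 1 := by rw [pow_mul, ← hk, ← hj, pow_one]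
  have h2 := Nat.pow_right_injective hx h1
  have h3 : k = 1 := Nat.eq_one_of_mul_eq_one_right h2
  rw [hk, h3, pow_one]

end Fermat.Agent.Cor.Sup
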